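import Fermat.Agent.S18.DefsMod
import Fermat.Agent.S18.FF.Charts
import Fermat.Agent.RR7222.NonSpecial

/-!
# S18, package RT (p = 1): the eight frozen statements of `Fermat/Agent/S18/RT.lean`, assembled
(helper1289) from

* `Fermat/Agent/RR7222/*.lean` (helper7222): Riemann's theorem in the Prelude language and reduced
  non-special divisors,
* `Fermat/Agent/S18/FF/{PrincipalDiv,Charts}.lean` (helper4042): `HasPrincipalDivisors`, residue
  fields, and the two charts, in any characteristic,
* the landed S24 place theory (`Fermat/Agent/S24/A564/*`).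

The statements below are copied verbatim from the frozen skeleton (same names, namespace
`Fermat.Agent.S18.RT1289`), so that `Fermat/Agent/S18/RT.lean` is a list of one-line calls.
-/

set_option autoImplicit false
set_option linter.unusedSectionVars false

noncomputable section

namespace Fermat.Agent.S18.RT1289

open AlgebraicCurve IntermediateField IsDedekindDomain
open scoped IntermediateField.algebraAdjoinAdjoin

variable {K F : Type*} [Field K] [Field F] [Algebra K F] [IsAlgClosed K]
variable (x : F) (hx : Transcendental K x) [FiniteDimensional K⟮x⟯ F]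
  [Algebra.IsSeparable K⟮x⟯ F]

include hx

/-- Every place has degree one. -/
theorem rt_deg_eq_one (P : Place K F) : P.deg = 1 :=
  FF.PD.deg_eq_one x P

/-- Divisors of functions exist (finitely many zeros and poles). -/
theorem rt_exists_divisor (f : F) (hf : f ≠ 0) :
    ∃ D : Divisor K F, ∀ P, D P = P.ord f := by
  have := FF.PD.hasPrincipalDivisors x hx
  obtain ⟨D, hD, -⟩ := HasPrincipalDivisors.exists_divisor (K := K) f hf
  exact ⟨D, hD⟩

/-- The pole divisor of `x` has degree `[F : K(x)]`. -/
theorem rt_pole_divisor :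
    ∃ D : Divisor K F, (∀ P, D P = max 0 (-(P.ord x))) ∧
      Divisor.degree D = Module.finrank K⟮x⟯ F := by
  have := FF.PD.hasPrincipalDivisors x hx
  have : ∀ v : Place K F, v.FiniteResidue := FF.PD.finiteResidue x
  exact ⟨RR7222.poleDiv (K := K) x, fun P => RR7222.poleDiv_apply x P,
    (RR7222.degree_poleDiv_eq (K := K) x hx).2⟩

/-- The zero divisor of `x - c` has degree `[F : K(x)]`. -/
theorem rt_zero_divisor (c : K) :
    ∃ D : Divisor K F, (∀ P, D P = max 0 (P.ord (x - algebraMap K F c))) ∧
      Divisor.degree D = Module.finrank K⟮x⟯ F := by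
  have := FF.PD.hasPrincipalDivisors x hx
  have : ∀ v : Place K F, v.FiniteResidue := FF.PD.finiteResidue x
  have heq : K⟮(x - algebraMap K F c)⁻¹⟯ = K⟮x⟯ := by
    rw [RR7222.adjoin_inv_eq, RR7222.adjoin_sub_const_eq]
  have hfd : FiniteDimensional K⟮(x - algebraMap K F c)⁻¹⟯ F := by
    rw [heq]
    infer_instance
  have hsep : Algebra.IsSeparable K⟮(x - algebraMap K F c)⁻¹⟯ F := by
    rw [heq]
    infer_instance
  have htr : Transcendental K (x - algebraMap K F c)⁻¹ :=
    FF.PD.transcendental_inv (RR7222.transcendental_sub_const hx c)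
  have hrank : Module.finrank K⟮(x - algebraMap K F c)⁻¹⟯ F = Module.finrank K⟮x⟯ F := by
    rw [heq]
  refine ⟨RR7222.poleDiv (K := K) (x - algebraMap K F c)⁻¹, fun P => ?_, ?_⟩
  · rw [RR7222.poleDiv_apply, P.ord_inv, neg_neg]
  · rw [(RR7222.degree_poleDiv_eq (K := K) _ htr).2, hrank]

/-- Elements integral over `K[x]` are regular at the finite places. -/
theorem rt_ord_nonneg_of_isIntegral (P : Place K F) (hP : 0 ≤ P.ord x) (f : F)
    (hf : IsIntegral (Algebra.adjoin K {x}) f) : 0 ≤ P.ord f :=
  (FF.forall_ord_nonneg_iff_isIntegral x f).mpr hf P hP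

/-- Conversely, functions regular at all finite places are integral over `K[x]`. -/
theorem rt_isIntegral_of_ord_nonneg (f : F)
    (hf : ∀ P : Place K F, 0 ≤ P.ord x → 0 ≤ P.ord f) :
    IsIntegral (Algebra.adjoin K {x}) f :=
  (FF.forall_ord_nonneg_iff_isIntegral x f).mp hf

/-- A finite place has a uniformiser which is integral over `K[x]`. -/
theorem rt_exists_uniformizer (P : Place K F) (hP : 0 ≤ P.ord x) :
    ∃ t : F, IsIntegral (Algebra.adjoin K {x}) t ∧ P.ord t = 1 := by
  classical
  let R := Algebra.adjoin K {x}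
  let B := integralClosure R F
  have : IsPrincipalIdealRing R := S24.A564.SO.adjoin_isPrincipalIdealRing x
  have : IsDedekindDomain B := IsIntegralClosure.isDedekindDomain R K⟮x⟯ F B
  have : IsFractionRing B F := IsIntegralClosure.isFractionRing_of_finite_extension R K⟮x⟯ F B
  have hxmem := S24.A564.SO.Place_mem_of_ord_nonneg P hP
  have hR := S24.A564.SO.Place_adjoin_le P hxmem
  have hB : ∀ b : B, algebraMap B F b ∈ P.toValuationSubring := fun b =>
    S24.A564.SO.Place_mem_of_isIntegral P hR b.2
  obtain ⟨w, rfl⟩ := S24.A564.SO.Place_exists_heightOneSpectrum_of_le P hB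
  obtain ⟨π, hπ⟩ := w.intValuation_exists_uniformizer
  refine ⟨algebraMap B F π, π.2, ?_⟩
  rw [S24.A564.SO.Place_ofHeightOneSpectrum_ord, HeightOneSpectrum.valuation_of_algebraMap, hπ,
    WithZero.log_exp, neg_neg]

/-- The chart description of `L(m (x)_∞)`. -/
theorem Lx_eq_riemannRochSpace [HasPrincipalDivisors K F] (m : ℕ) :
    Lx K x m = riemannRochSpace (m • RR7222.poleDiv (K := K) x) := by
  ext f
  rw [FF.mem_riemannRochSpace_nsmul_poleDiv_iff x hx m f]
  rfl

/-- **Riemann's theorem** (two-chart form) and the existence of reduced non-special divisors. -/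
theorem rt_riemann :
    ∃ g : ℕ,
      (∀ m : ℕ, Module.Finite K (Lx K x m)) ∧
      (∃ m₀ : ℕ, ∀ m : ℕ, m₀ ≤ m →
        (Module.finrank K (Lx K x m) : ℤ) = (Module.finrank K⟮x⟯ F : ℤ) * m + 1 - g) ∧
      (∀ D : Divisor K F, Divisor.degree D = g → ∃ f : F, f ≠ 0 ∧ ∀ P, 0 ≤ P.ord f + D P) ∧
      (∀ (S : Finset (Place K F)) (g' : ℕ), g' ≤ g →
        ∃ Q : Fin g' → Place K F, Function.Injective Q ∧
          (∀ i, Q i ∉ S ∧ 0 ≤ (Q i).ord x) ∧
          ∀ f : F, f ≠ 0 →
            (∀ P, (P ∈ Set.range Q → -1 ≤ P.ord f) ∧ (P ∉ Set.range Q → 0 ≤ P.ord f)) →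
            ∃ c : K, f = algebraMap K F c) := by
  classical
  have hpd := FF.PD.hasPrincipalDivisors x hx
  have hfr : ∀ v : Place K F, v.FiniteResidue := FF.PD.finiteResidue x
  have hne : Nonempty (Place K F) := (RR7222.degree_poleDiv_eq (K := K) x hx).1
  refine ⟨genusFF K F, ?_, ?_, ?_, ?_⟩
  · intro m
    rw [Lx_eq_riemannRochSpace x hx m]
    exact (FF.riemann_roch x hx _).2.1
  · obtain ⟨m₀, hm₀⟩ := FF.exists_nsmul_poleDiv_bound (K := K) x hx
    refine ⟨m₀, fun m hm => ?_⟩
    rw [Lx_eq_riemannRochSpace x hx m, hm₀ m hm]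
    ring
  · intro D hD
    have h := FF.riemann_ineq x hx D
    rw [hD] at h
    have hfin := (FF.riemann_roch x hx D).2.1
    have hpos : 0 < Module.finrank K ↥(riemannRochSpace D) := by omega
    obtain ⟨⟨f, hf⟩, hf0⟩ := (Module.finrank_pos_iff_exists_ne_zero (R := K)).mp hpos
    have hf0' : f ≠ 0 := fun h0 => hf0 (Subtype.ext h0)
    refine ⟨f, hf0', fun P => ?_⟩
    have := (mem_riemannRochSpace_iff.mp hf P).resolve_left hf0'
    linarith
  · intro S g' hg'
    have hinf : ({v : Place K F | 0 ≤ v.ord x} \ (S : Set (Place K F))).Infinite :=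
      (RR7222.infinite_setOf_ord_nonneg (K := K) x hx).sdiff S.finite_toSet
    obtain ⟨T, hTS, hcard, hL⟩ := RR7222.exists_nonspecial_le (K := K) x hx _ hinf g' hg'
    let e : Fin g' ≃ T := (T.equivFinOfCardEq hcard).symm
    have hrange : ∀ P : Place K F, P ∈ Set.range (fun i => (e i : Place K F)) ↔ P ∈ T := by
      intro P
      constructor
      · rintro ⟨i, rfl⟩
        exact (e i).2
      · intro hP
        exact ⟨e.symm ⟨P, hP⟩, by simp⟩
    refine ⟨fun i => (e i : Place K F), Subtype.val_injective.comp e.injective, fun i => ?_,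
      fun f hf hcond => ?_⟩
    · have h1 := hTS (e i).2
      exact ⟨h1.2, h1.1⟩
    · have hmem : f ∈ riemannRochSpace (RR7222.redDiv T) := by
        rw [mem_riemannRochSpace_iff]
        intro v
        right
        rw [RR7222.redDiv_apply]
        by_cases hv : v ∈ T
        · rw [if_pos hv]
          exact (hcond v).1 ((hrange v).mpr hv)
        · rw [if_neg hv, neg_zero]
          exact (hcond v).2 (fun h => hv ((hrange v).mp h))
      rw [hL] at hmem
      obtain ⟨c, hc⟩ := hmem
      exact ⟨c, hc.symm⟩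

end Fermat.Agent.S18.RT1289
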